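import Mathlib
import Fermat.Prelude.Def_ModularForm_HeckeOperator
import Fermat.Prelude.Def_FLTPrelim_Modularity
import Fermat.Prelude.Thm_CongruenceSubgroup_one_mem_strictPeriods_Gamma0

/-!
# S16 WP-E (helper422): the weight-2 Eisenstein series of level `Γ₀(N)`

`eisFun N = (N · E₂(N τ) − E₂(τ)) / 24 = (E₂ ∣[2] diag(N,1) − E₂) / 24`  (any `N ≥ 1`).

Main results (all for arbitrary `N ≠ 0`, in particular `N = p` prime):

* `eis N : ModularForm (Gamma0 N) 2` with `⇑(eis N) = eisFun N`;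
* `eisFun_apply`: `eisFun N τ = (N * E2 (heckeDiagMatrix N • τ) - E2 τ) / 24`;
* `hasSum_eisFun`: the `q`-expansion as a `HasSum`;
* `qExpansion_eis_coeff_zero : (qExpansion 1 (eis N)).coeff 0 = (N - 1) / 24`;
* `qExpansion_eis_coeff : n ≠ 0 → (qExpansion 1 (eis N)).coeff n = sigmaPrime N n`,
  where `sigmaPrime N n = ∑ d ∈ n.divisors with ¬ N ∣ d, d`;
* the same in the Prelude's `ModularFormClass.qCoeff` form (`qCoeff_eis_zero`, `qCoeff_eis`).
-/

set_option autoImplicit false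

namespace Fermat.Agent.S16.H422

section Arith

open ArithmeticFunction
open scoped ArithmeticFunction.sigma


/-- Sum of the divisors of `n` that are not divisible by `N` (for `N = p` prime: the sum of the
divisors of `n` prime to `p`). -/
def sigmaPrime (N n : ℕ) : ℕ := ∑ d ∈ n.divisors with ¬ N ∣ d, d

theorem sum_divisors_filter_dvd {N : ℕ} (hN : N ≠ 0) (n : ℕ) :
    ∑ d ∈ n.divisors with N ∣ d, d = N * (if N ∣ n then σ 1 (n / N) else 0) := by
  split_ifs with h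
  · obtain ⟨m, rfl⟩ := h
    rw [Nat.mul_div_cancel_left m (Nat.pos_of_ne_zero hN), sigma_one_apply, Finset.mul_sum]
    rcases eq_or_ne m 0 with rfl | hm
    · simp
    symm
    refine Finset.sum_nbij' (fun d => N * d) (fun d => d / N) ?_ ?_ ?_ ?_ ?_
    · intro d hd
      simp only [Nat.mem_divisors, Finset.mem_filter] at hd ⊢
      exact ⟨⟨Nat.mul_dvd_mul_left N hd.1, Nat.mul_ne_zero hN hm⟩, dvd_mul_right N d⟩
    · intro d hd
      simp only [Nat.mem_divisors, Finset.mem_filter] at hd ⊢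
      obtain ⟨⟨h1, -⟩, ⟨e, rfl⟩⟩ := hd
      rw [Nat.mul_div_cancel_left e (Nat.pos_of_ne_zero hN)]
      exact ⟨(Nat.mul_dvd_mul_iff_left (Nat.pos_of_ne_zero hN)).mp h1, hm⟩
    · intro d _
      exact Nat.mul_div_cancel_left d (Nat.pos_of_ne_zero hN)
    · intro d hd
      simp only [Nat.mem_divisors, Finset.mem_filter] at hd
      exact Nat.mul_div_cancel' hd.2
    · intro d _
      rfl
  · rw [mul_zero]
    apply Finset.sum_eq_zero
    intro d hd
    simp only [Nat.mem_divisors, Finset.mem_filter] at hd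
    exact absurd (hd.2.trans hd.1.1) h

theorem sigma_one_eq_sigmaPrime_add {N : ℕ} (hN : N ≠ 0) (n : ℕ) :
    σ 1 n = sigmaPrime N n + N * (if N ∣ n then σ 1 (n / N) else 0) := by
  rw [← sum_divisors_filter_dvd hN n, sigmaPrime, add_comm, sigma_one_apply,
    Finset.sum_filter_add_sum_filter_not]


end Arith

open UpperHalfPlane ModularForm EisensteinSeries CongruenceSubgroup MatrixGroups
open Matrix.SpecialLinearGroup
open scoped ModularForm Manifold Real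

noncomputable section

/-- The raw function `(N · E₂(N τ) − E₂(τ)) / 24`, written with the slash action of
the Prelude matrix `heckeDiagMatrix N = diag(N,1)`. -/
def eisFun (N : ℕ) : ℍ → ℂ :=
  (1 / 24 : ℂ) • (E2 ∣[(2 : ℤ)] heckeDiagMatrix N - E2)

theorem eisFun_apply {N : ℕ} (hN : N ≠ 0) (τ : ℍ) :
    eisFun N τ = ((N : ℂ) * E2 (heckeDiagMatrix N • τ) - E2 τ) / 24 := by
  simp only [eisFun, Pi.smul_apply, Pi.sub_apply, smul_eq_mul,
    slash_heckeDiagMatrix_apply (2 : ℤ) hN]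
  norm_num
  ring

theorem eisFun_mdifferentiable (N : ℕ) : MDiff (eisFun N) := by
  unfold eisFun
  exact ((E2_mdifferentiable.slash 2 _).sub E2_mdifferentiable).const_smul _

/-- Conjugating `γ ∈ Γ₀(N)` by `diag(N,1)` stays inside `SL(2,ℤ)`. -/
theorem exists_conj_heckeDiagMatrix {N : ℕ} (hN : N ≠ 0) (γ : SL(2, ℤ)) (hγ : γ ∈ Gamma0 N) :
    ∃ γ' : SL(2, ℤ), γ' 1 0 * (N : ℤ) = γ 1 0 ∧ γ' 1 1 = γ 1 1 ∧
      heckeDiagMatrix N * (γ : GL (Fin 2) ℝ) = (γ' : GL (Fin 2) ℝ) * heckeDiagMatrix N := by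
  rw [Gamma0_mem, ZMod.intCast_zmod_eq_zero_iff_dvd] at hγ
  obtain ⟨c', hc'⟩ := hγ
  have hdet : γ 0 0 * γ 1 1 - γ 0 1 * γ 1 0 = 1 := by
    have := γ.det_coe
    rwa [Matrix.det_fin_two] at this
  obtain ⟨γ', e00, e01, e10, e11⟩ : ∃ γ' : SL(2, ℤ), γ' 0 0 = γ 0 0 ∧ γ' 0 1 = N * γ 0 1 ∧
      γ' 1 0 = c' ∧ γ' 1 1 = γ 1 1 := by
    refine ⟨⟨!![γ 0 0, N * γ 0 1; c', γ 1 1], ?_⟩, by simp, by simp, by simp, by simp⟩
    rw [Matrix.det_fin_two_of]
    rw [hc'] at hdet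
    linear_combination hdet
  refine ⟨γ', ?_, e11, ?_⟩
  · rw [e10, hc', mul_comm]
  · ext i j
    fin_cases i <;> fin_cases j <;>
      simp [Matrix.mul_apply, Fin.sum_univ_two, val_heckeDiagMatrix hN, hc', mul_comm,
        e00, e01, e10, e11]

/-- The defect cocycle `D2` is compatible with conjugation by `diag(N,1)`. -/
theorem D2_slash_heckeDiagMatrix {N : ℕ} (hN : N ≠ 0) (γ γ' : SL(2, ℤ))
    (h10 : γ' 1 0 * (N : ℤ) = γ 1 0) (h11 : γ' 1 1 = γ 1 1) :
    D2 γ' ∣[(2 : ℤ)] heckeDiagMatrix N = D2 γ := by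
  ext τ
  rw [slash_heckeDiagMatrix_apply (2 : ℤ) hN]
  have h1 := denom_ne_zero γ τ
  have h2 := denom_ne_zero γ' (heckeDiagMatrix N • τ)
  simp only [D2]
  rw [ModularGroup.denom_apply] at h1 h2 ⊢
  rw [ModularGroup.denom_apply]
  rw [coe_heckeDiagMatrix_smul hN] at h2 ⊢
  rw [← h10, ← h11] at h1 ⊢
  push_cast at h1 h2 ⊢
  field_simp

theorem E2_slash_heckeDiagMatrix_slash {N : ℕ} (hN : N ≠ 0) (γ : SL(2, ℤ)) (hγ : γ ∈ Gamma0 N) :
    (E2 ∣[(2 : ℤ)] heckeDiagMatrix N) ∣[(2 : ℤ)] γ =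
      E2 ∣[(2 : ℤ)] heckeDiagMatrix N - (1 / (2 * riemannZeta 2)) • D2 γ := by
  obtain ⟨γ', h10, h11, hconj⟩ := exists_conj_heckeDiagMatrix hN γ hγ
  rw [SL_slash, ← SlashAction.slash_mul, hconj, SlashAction.slash_mul, ← SL_slash,
    E2_slash_action, sub_eq_add_neg, SlashAction.add_slash, SlashAction.neg_slash,
    ModularForm.smul_slash, D2_slash_heckeDiagMatrix hN γ γ' h10 h11, σ_heckeDiagMatrix,
    ← sub_eq_add_neg]
  rfl

theorem eisFun_slash {N : ℕ} (hN : N ≠ 0) (γ : SL(2, ℤ)) (hγ : γ ∈ Gamma0 N) :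
    eisFun N ∣[(2 : ℤ)] γ = eisFun N := by
  unfold eisFun
  rw [SL_smul_slash, sub_eq_add_neg, SlashAction.add_slash, SlashAction.neg_slash,
    E2_slash_heckeDiagMatrix_slash hN γ hγ, E2_slash_action]
  congr 1
  abel


/-! ### Boundedness at the cusps -/

theorem isBoundedAtImInfty_D2 (γ : SL(2, ℤ)) : IsBoundedAtImInfty (D2 γ) := by
  rw [UpperHalfPlane.isBoundedAtImInfty_iff]
  refine ⟨2 * π, 1, fun z hz => ?_⟩
  simp only [D2]
  by_cases hc : (γ 1 0 : ℤ) = 0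
  · simp [hc, Real.pi_pos.le]
  · have hd : denom γ z ≠ 0 := denom_ne_zero γ z
    rw [norm_div, div_le_iff₀ (norm_pos_iff.mpr hd)]
    have h1 : ‖(2 * π * Complex.I * (γ 1 0 : ℂ))‖ = 2 * π * |(γ 1 0 : ℝ)| := by
      simp [abs_of_pos Real.pi_pos]
    have h2 : |(γ 1 0 : ℝ)| * z.im ≤ ‖denom γ z‖ := by
      have him : (denom γ z).im = (γ 1 0 : ℝ) * z.im := by
        rw [ModularGroup.denom_apply]
        simp
      calc |(γ 1 0 : ℝ)| * z.im = |(denom γ z).im| := by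
            rw [him, abs_mul, abs_of_pos z.im_pos]
        _ ≤ ‖denom γ z‖ := Complex.abs_im_le_norm _
    have h3 : |(γ 1 0 : ℝ)| ≤ |(γ 1 0 : ℝ)| * z.im := by
      nlinarith [abs_nonneg (γ 1 0 : ℝ)]
    rw [h1]
    have := Real.pi_pos
    nlinarith [h2, h3]

theorem isBoundedAt_E2 {c : OnePoint ℝ} (hc : IsCusp c 𝒮ℒ) : c.IsBoundedAt E2 2 := by
  rw [OnePoint.isBoundedAt_iff_forall_SL2Z hc]
  intro γ _
  rw [E2_slash_action]
  exact isBoundedAtImInfty_E2.sub ((isBoundedAtImInfty_D2 γ).const_smul_left _)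


theorem isCusp_heckeDiagMatrix_smul (N : ℕ) {c : OnePoint ℝ} (hc : IsCusp c 𝒮ℒ) :
    IsCusp (heckeDiagMatrix N • c) 𝒮ℒ := by
  rcases eq_or_ne N 0 with rfl | hN
  · simpa using hc
  have hg : ∃ g : GL (Fin 2) ℚ,
      heckeDiagMatrix N = Matrix.GeneralLinearGroup.map (Rat.castHom ℝ) g := by
    refine ⟨Matrix.GeneralLinearGroup.mkOfDetNeZero !![(N : ℚ), 0; 0, 1]
      (by rw [Matrix.det_fin_two_of]; simpa using hN), ?_⟩
    ext i j
    fin_cases i <;> fin_cases j <;>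
      simp [val_heckeDiagMatrix hN, Matrix.GeneralLinearGroup.mkOfDetNeZero]
  obtain ⟨g, hg⟩ := hg
  rw [isCusp_SL2Z_iff] at hc ⊢
  obtain ⟨c, rfl⟩ := hc
  exact ⟨g • c, by rw [hg, ← Rat.coe_castHom, OnePoint.map_smul]⟩

theorem isBoundedAt_eisFun (N : ℕ) {c : OnePoint ℝ} (hc : IsCusp c 𝒮ℒ) :
    c.IsBoundedAt (eisFun N) 2 := by
  have h1 : c.IsBoundedAt (E2 ∣[(2 : ℤ)] heckeDiagMatrix N) 2 :=
    OnePoint.IsBoundedAt.smul_iff.mp (isBoundedAt_E2 (isCusp_heckeDiagMatrix_smul N hc))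
  have h2 : c.IsBoundedAt E2 2 := isBoundedAt_E2 hc
  intro g hg
  have e : eisFun N ∣[(2 : ℤ)] g = (UpperHalfPlane.σ g (1 / 24 : ℂ)) •
      ((E2 ∣[(2 : ℤ)] heckeDiagMatrix N) ∣[(2 : ℤ)] g - E2 ∣[(2 : ℤ)] g) := by
    unfold eisFun
    rw [ModularForm.smul_slash, sub_eq_add_neg, SlashAction.add_slash, SlashAction.neg_slash,
      ← sub_eq_add_neg]
  rw [e]
  exact ((h1 g hg).sub (h2 g hg)).const_smul_left _

/-- **WP-E**: the Eisenstein series `(N E₂(Nτ) − E₂(τ))/24` as a modular form of weight 2 on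
`Γ₀(N)`. -/
def eis (N : ℕ) [NeZero N] : ModularForm (Gamma0 N) 2 where
  toFun := eisFun N
  slash_action_eq' := by
    rintro _ ⟨γ, hγ, rfl⟩
    exact eisFun_slash (NeZero.ne N) γ hγ
  holo' := eisFun_mdifferentiable N
  bdd_at_cusps' {c} hc := by
    rw [Subgroup.IsArithmetic.isCusp_iff_isCusp_SL2Z] at hc
    exact isBoundedAt_eisFun N hc

@[simp] theorem coe_eis (N : ℕ) [NeZero N] : ⇑(eis N) = eisFun N := rfl


/-! ### The `q`-expansion -/

/-- The `q`-expansion coefficients of `E₂`. -/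
def coeffE2 (m : ℕ) : ℂ := if m = 0 then 1 else -24 * (ArithmeticFunction.sigma 1 m : ℂ)

/-- The `q`-expansion coefficients of `eisFun N`, in raw form. -/
def eisCoeff (N n : ℕ) : ℂ :=
  ((N : ℂ) * (if N ∣ n then coeffE2 (n / N) else 0) - coeffE2 n) / 24

theorem hasSum_E2_qParam (τ : ℍ) :
    HasSum (fun m : ℕ ↦ coeffE2 m • Function.Periodic.qParam 1 τ ^ m) (E2 τ) := by
  have := hasSum_qExpansion_E2 (z := τ)
  simpa only [Function.Periodic.qParam, Complex.ofReal_one, div_one, coeffE2] using this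

theorem qParam_heckeDiagMatrix_smul {N : ℕ} (hN : N ≠ 0) (τ : ℍ) :
    Function.Periodic.qParam 1 (heckeDiagMatrix N • τ : ℍ) = Function.Periodic.qParam 1 τ ^ N := by
  rw [coe_heckeDiagMatrix_smul hN]
  simp only [Function.Periodic.qParam, Complex.ofReal_one, div_one]
  rw [← Complex.exp_nat_mul]
  congr 1
  ring

theorem hasSum_E2_heckeDiagMatrix {N : ℕ} (hN : N ≠ 0) (τ : ℍ) :
    HasSum (fun n : ℕ ↦ (if N ∣ n then coeffE2 (n / N) else 0) • Function.Periodic.qParam 1 τ ^ n)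
      (E2 (heckeDiagMatrix N • τ)) := by
  have h := hasSum_E2_qParam (heckeDiagMatrix N • τ)
  rw [qParam_heckeDiagMatrix_smul hN] at h
  have hinj : Function.Injective (fun m : ℕ => N * m) := mul_right_injective₀ hN
  refine (Function.Injective.hasSum_iff hinj ?_).mp ?_
  · intro n hn
    have : ¬ N ∣ n := fun ⟨m, hm⟩ => hn ⟨m, hm.symm⟩
    simp [this]
  · convert h using 1
    ext m
    simp [Nat.mul_div_cancel_left m (Nat.pos_of_ne_zero hN), pow_mul]

theorem hasSum_eisFun {N : ℕ} (hN : N ≠ 0) (τ : ℍ) :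
    HasSum (fun n : ℕ ↦ eisCoeff N n • Function.Periodic.qParam 1 τ ^ n) (eisFun N τ) := by
  rw [eisFun_apply hN]
  have h := (((hasSum_E2_heckeDiagMatrix hN τ).mul_left (N : ℂ)).sub
    (hasSum_E2_qParam τ)).div_const 24
  have h' : (fun n : ℕ ↦ eisCoeff N n • Function.Periodic.qParam 1 τ ^ n) = fun i =>
      ((N : ℂ) * (if N ∣ i then coeffE2 (i / N) else 0) • Function.Periodic.qParam 1 (τ : ℂ) ^ i -
          coeffE2 i • Function.Periodic.qParam 1 (τ : ℂ) ^ i) / 24 := by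
    funext n
    simp only [eisCoeff, smul_eq_mul]
    ring
  rw [h']
  exact h


theorem coeffE2_zero : coeffE2 0 = 1 := by simp [coeffE2]

theorem coeffE2_of_ne_zero {m : ℕ} (hm : m ≠ 0) :
    coeffE2 m = -24 * (ArithmeticFunction.sigma 1 m : ℂ) := by simp [coeffE2, hm]

theorem eisCoeff_zero (N : ℕ) : eisCoeff N 0 = ((N : ℂ) - 1) / 24 := by
  simp [eisCoeff, coeffE2_zero]

theorem eisCoeff_of_ne_zero {N n : ℕ} (hN : N ≠ 0) (hn : n ≠ 0) :
    eisCoeff N n = (sigmaPrime N n : ℂ) := by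
  have h := sigma_one_eq_sigmaPrime_add hN n
  have hc : ((ArithmeticFunction.sigma 1 n : ℕ) : ℂ) = (sigmaPrime N n : ℂ) +
      (N : ℂ) * (if N ∣ n then ((ArithmeticFunction.sigma 1 (n / N) : ℕ) : ℂ) else 0) := by
    rw [h]
    push_cast
    split_ifs <;> simp
  rw [eisCoeff, coeffE2_of_ne_zero hn, hc]
  by_cases hd : N ∣ n
  · have hq : n / N ≠ 0 := by
      obtain ⟨m, rfl⟩ := hd
      rw [Nat.mul_div_cancel_left m (Nat.pos_of_ne_zero hN)]
      exact fun h0 => hn (by simp [h0])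
    simp only [hd, if_true, coeffE2_of_ne_zero hq]
    ring
  · simp only [hd, if_false]
    ring

/-- **WP-E, `q`-expansion**: all coefficients of `eis N`, raw form. -/
theorem qExpansion_eis_coeff_eq_eisCoeff (N : ℕ) [NeZero N] (n : ℕ) :
    (qExpansion 1 (eis N)).coeff n = eisCoeff N n :=
  (ModularFormClass.qExpansion_coeff_unique one_pos (one_mem_strictPeriods_Gamma0 N)
    (f := eis N) (fun τ => hasSum_eisFun (NeZero.ne N) τ) n).symm

/-- **WP-E**: the constant term of `eis N` is `(N - 1) / 24`. -/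
theorem qExpansion_eis_coeff_zero (N : ℕ) [NeZero N] :
    (qExpansion 1 (eis N)).coeff 0 = ((N : ℂ) - 1) / 24 := by
  rw [qExpansion_eis_coeff_eq_eisCoeff, eisCoeff_zero]

/-- **WP-E**: for `n ≥ 1` the `n`-th coefficient of `eis N` is `σ'(n)`, the sum of the divisors
of `n` not divisible by `N`. -/
theorem qExpansion_eis_coeff (N : ℕ) [NeZero N] {n : ℕ} (hn : n ≠ 0) :
    (qExpansion 1 (eis N)).coeff n = (sigmaPrime N n : ℂ) := by
  rw [qExpansion_eis_coeff_eq_eisCoeff, eisCoeff_of_ne_zero (NeZero.ne N) hn]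

theorem qCoeff_eis_zero (N : ℕ) [NeZero N] :
    ModularFormClass.qCoeff (eis N) 0 = ((N : ℂ) - 1) / 24 :=
  qExpansion_eis_coeff_zero N

theorem qCoeff_eis (N : ℕ) [NeZero N] {n : ℕ} (hn : n ≠ 0) :
    ModularFormClass.qCoeff (eis N) n = (sigmaPrime N n : ℂ) :=
  qExpansion_eis_coeff N hn

end

end Fermat.Agent.S16.H422
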