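import Fermat.Agent.S16.Interface
import Fermat.Agent.S16.H471.ThetaInv

/-!
# S16 WP INV in exact skeleton shape (helper422)

`thetaInv_of_isGoodLattice : IsGoodLattice p A B → ThetaInv p A B` for ANY good lattice
(in particular for `ibuA p q r t`), deduced from helper471's generic theta inversion
`Fermat.Agent.S16.H471.theta_inversion`.
-/

set_option autoImplicit false

namespace Fermat.Agent.S16.H422

open Complex Matrix
open UpperHalfPlane hiding I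
open Fermat.Agent.S16
open Fermat.Agent.S16.H471 (toR)

noncomputable section

/-- real points of an integer matrix -/
def matR (A : Matrix (Fin 4) (Fin 4) ℤ) : Matrix (Fin 4) (Fin 4) ℝ := A.map (Int.cast : ℤ → ℝ)

lemma matR_mulVec_toR (A : Matrix (Fin 4) (Fin 4) ℤ) (x : Fin 4 → ℤ) :
    matR A *ᵥ toR x = toR (A.mulVec x) := by
  ext i
  simp [matR, Matrix.mulVec, dotProduct, toR]

lemma toR_dotProduct (x y : Fin 4 → ℤ) : toR x ⬝ᵥ toR y = ((x ⬝ᵥ y : ℤ) : ℝ) := by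
  simp [dotProduct, toR]

lemma toR_qf (A : Matrix (Fin 4) (Fin 4) ℤ) (x : Fin 4 → ℤ) :
    toR x ⬝ᵥ (matR A *ᵥ toR x) = ((qf A x : ℤ) : ℝ) := by
  rw [matR_mulVec_toR, toR_dotProduct, qf]

section

variable {p : ℕ} {A B : Matrix (Fin 4) (Fin 4) ℤ}

lemma matR_mul (hA : IsGoodLattice p A B) : matR A * matR B = (p : ℝ) • (1 : Matrix _ _ ℝ) := by
  have h := congrArg (Int.castRingHom ℝ).mapMatrix hA.mul_eq
  rw [map_mul] at h
  simp only [matR]
  refine h.trans ?_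
  ext i j
  simp only [RingHom.mapMatrix_apply, Matrix.map_apply, Matrix.smul_apply, Matrix.one_apply,
    Int.coe_castRingHom, smul_eq_mul]
  by_cases hij : i = j
  · simp [hij]
  · simp [hij]

lemma det_matR (hA : IsGoodLattice p A B) : (matR A).det = (p : ℝ) ^ 2 := by
  have h : (matR A).det = ((A.det : ℤ) : ℝ) := by
    rw [matR]
    exact (RingHom.map_det (Int.castRingHom ℝ) A).symm
  rw [h, hA.det_eq]
  push_cast
  rfl

lemma p_pos (hA : IsGoodLattice p A B) : 0 < p := by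
  have h1 : 0 < (matR A).det := hA.posDef.det_pos
  rw [det_matR hA] at h1
  rcases Nat.eq_zero_or_pos p with h0 | h0
  · subst h0
    simp at h1
  · exact h0

lemma matR_isSymm (hA : IsGoodLattice p A B) : (matR A).IsSymm := by
  have := hA.symm
  unfold Matrix.IsSymm at this ⊢
  rw [matR, ← Matrix.transpose_map, this]

lemma matR_inv (hA : IsGoodLattice p A B) : (matR A)⁻¹ = (p : ℝ)⁻¹ • matR B := by
  have hp : (p : ℝ) ≠ 0 := by exact_mod_cast (p_pos hA).ne'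
  apply Matrix.inv_eq_right_inv
  rw [Matrix.mul_smul, matR_mul hA, smul_smul, inv_mul_cancel₀ hp, one_smul]

end

lemma matR_mulVec_shift {p : ℕ} {A B : Matrix (Fin 4) (Fin 4) ℤ} (hA : IsGoodLattice p A B)
    (y : Fin 4 → ℤ) : matR A *ᵥ ((p : ℝ)⁻¹ • (matR B *ᵥ toR y)) = toR y := by
  have hp : (p : ℝ) ≠ 0 := by exact_mod_cast (p_pos hA).ne'
  rw [Matrix.mulVec_smul, Matrix.mulVec_mulVec, matR_mul hA, Matrix.smul_mulVec,
    Matrix.one_mulVec, smul_smul, inv_mul_cancel₀ hp, one_smul]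

/-- the exponent of the shifted theta series -/
lemma shifted_qf {p : ℕ} {A B : Matrix (Fin 4) (Fin 4) ℤ} (hA : IsGoodLattice p A B)
    (x y : Fin 4 → ℤ) :
    (toR x + (p : ℝ)⁻¹ • (matR B *ᵥ toR y)) ⬝ᵥ
        (matR A *ᵥ (toR x + (p : ℝ)⁻¹ • (matR B *ᵥ toR y))) =
      ((qf A x : ℤ) : ℝ) + 2 * ((x ⬝ᵥ y : ℤ) : ℝ) + ((qf B y : ℤ) : ℝ) / p := by
  rw [Matrix.mulVec_add, matR_mulVec_shift hA, add_dotProduct, dotProduct_add, dotProduct_add,
    toR_qf, toR_dotProduct, smul_dotProduct, smul_dotProduct]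
  have h1 : (matR B *ᵥ toR y) ⬝ᵥ (matR A *ᵥ toR x) = ((p : ℝ)) * ((x ⬝ᵥ y : ℤ) : ℝ) := by
    rw [Matrix.dotProduct_mulVec, ← (matR_isSymm hA).eq, Matrix.vecMul_transpose,
      Matrix.mulVec_mulVec, matR_mul hA, Matrix.smul_mulVec, Matrix.one_mulVec, smul_dotProduct,
      dotProduct_comm, toR_dotProduct, smul_eq_mul]
  have h2 : (matR B *ᵥ toR y) ⬝ᵥ toR y = ((qf B y : ℤ) : ℝ) := by
    rw [dotProduct_comm, toR_qf]
  have hp : (p : ℝ) ≠ 0 := by exact_mod_cast (p_pos hA).ne'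
  rw [h1, h2, smul_eq_mul, smul_eq_mul]
  field_simp
  ring

lemma dual_qf {p : ℕ} {A B : Matrix (Fin 4) (Fin 4) ℤ} (hA : IsGoodLattice p A B)
    (w : Fin 4 → ℤ) :
    (toR w - 0) ⬝ᵥ ((matR A)⁻¹ *ᵥ (toR w - 0)) = ((qf B w : ℤ) : ℝ) / p := by
  rw [sub_zero, matR_inv hA, Matrix.smul_mulVec, dotProduct_smul, toR_qf, smul_eq_mul]
  ring

lemma dual_phase {p : ℕ} {B : Matrix (Fin 4) (Fin 4) ℤ} (w y : Fin 4 → ℤ) :
    toR w ⬝ᵥ ((p : ℝ)⁻¹ • (matR B *ᵥ toR y)) = ((w ⬝ᵥ B.mulVec y : ℤ) : ℝ) / p := by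
  rw [dotProduct_smul, matR_mulVec_toR, toR_dotProduct, smul_eq_mul]
  ring

lemma cpow_half_pow_four (w : ℂ) : (w ^ (1 / 2 : ℂ)) ^ 4 = w ^ 2 := by
  have h : (w ^ (1 / 2 : ℂ)) ^ 2 = w := by
    simp [one_div]
  calc (w ^ (1 / 2 : ℂ)) ^ 4 = ((w ^ (1 / 2 : ℂ)) ^ 2) ^ 2 := by ring
    _ = w ^ 2 := by rw [h]

/-- **WP INV** (exact skeleton conclusion, for every good lattice). -/
theorem thetaInv_of_isGoodLattice {p : ℕ} {A B : Matrix (Fin 4) (Fin 4) ℤ}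
    (hA : IsGoodLattice p A B) : ThetaInv p A B := by
  intro y z
  have hp : (p : ℝ) ≠ 0 := by exact_mod_cast (p_pos hA).ne'
  have hpC : (p : ℂ) ≠ 0 := by exact_mod_cast (p_pos hA).ne'
  have hz : (z : ℂ) ≠ 0 := ne_zero z
  have hτim : 0 < ((ModularGroup.S • z : ℍ) : ℂ).im := (ModularGroup.S • z).im_pos
  have hτz : ((ModularGroup.S • z : ℍ) : ℂ) = -1 / (z : ℂ) := by
    rw [UpperHalfPlane.modular_S_smul]
    simp [neg_div, inv_neg]
  have key := H471.theta_inversion (matR A) hA.posDef ((ModularGroup.S • z : ℍ) : ℂ) hτim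
    ((p : ℝ)⁻¹ • (matR B *ᵥ toR y)) 0
  unfold thetaChar
  have hL : ∀ x : Fin 4 → ℤ,
      cexp (Real.pi * I * ((ModularGroup.S • z : ℍ) : ℂ) *
        ((qf A x : ℂ) + 2 * ((x ⬝ᵥ y : ℤ) : ℂ) + (qf B y : ℂ) / p)) =
      cexp (Real.pi * I * ((ModularGroup.S • z : ℍ) : ℂ) *
        (((toR x + (p : ℝ)⁻¹ • (matR B *ᵥ toR y)) ⬝ᵥ
          (matR A *ᵥ (toR x + (p : ℝ)⁻¹ • (matR B *ᵥ toR y))) : ℝ) : ℂ) +
        2 * Real.pi * I * (((0 : Fin 4 → ℝ) ⬝ᵥ (toR x + (p : ℝ)⁻¹ • (matR B *ᵥ toR y)) : ℝ) : ℂ)) := by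
    intro x
    rw [shifted_qf hA, zero_dotProduct]
    push_cast
    ring_nf
  have hR : ∀ w : Fin 4 → ℤ,
      cexp (-(Real.pi * I / ((ModularGroup.S • z : ℍ) : ℂ)) *
        (((toR w - 0) ⬝ᵥ ((matR A)⁻¹ *ᵥ (toR w - 0)) : ℝ) : ℂ) +
        2 * Real.pi * I * ((toR w ⬝ᵥ ((p : ℝ)⁻¹ • (matR B *ᵥ toR y)) : ℝ) : ℂ)) =
      cexp (Real.pi * I * z * ((qf B w : ℂ) / p) +
        2 * Real.pi * I * (((w ⬝ᵥ B.mulVec y : ℤ) : ℂ) / p)) := by
    intro w
    rw [dual_qf hA, dual_phase, hτz]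
    push_cast
    congr 1
    field_simp
  rw [tsum_congr hL, key, tsum_congr hR]
  congr 1
  rw [det_matR hA, Real.sqrt_sq (by positivity), Fintype.card_fin, _root_.one_div_pow,
    cpow_half_pow_four, hτz]
  push_cast
  field_simp
  rw [Complex.I_sq]
  ring

/-- **WP INV**, verbatim skeleton statement `Skel.theta_inversion`. -/
theorem theta_inversion (p : ℕ) [Fact p.Prime] (q r t : ℤ) (_hq : 0 < q) (_hq4 : q % 4 = 3)
    (_hrt : r ^ 2 + (p : ℤ) = q * t) (B : Matrix (Fin 4) (Fin 4) ℤ)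
    (hA : IsGoodLattice p (ibuA p q r t) B) : ThetaInv p (ibuA p q r t) B :=
  thetaInv_of_isGoodLattice hA

end

end Fermat.Agent.S16.H422
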