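import Fermat.Agent.S16.H131.U4
import Fermat.Agent.S16.H377.SkelFR
import Fermat.Agent.S16.H556.Basic
import Fermat.Prelude.Def_ModularForm_HeckeOperatorForms

/-!
# S16 WP U4 in exact skeleton shape (helper422)

We instantiate helper131's abstract Fricke system `H131.FrickeSys p` with the actual modular
forms on `Γ₀(p)` (pairs `(q(F), q(F^))`), using helper377's Fricke/trace API, and deduce the
skeleton statement `U4`.
-/

set_option autoImplicit false

namespace Fermat.Agent.S16.H422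

open UpperHalfPlane ModularForm CongruenceSubgroup MatrixGroups ModularFormClass
open Fermat.Agent.S20 (MF SF)
open Fermat.Agent.S16
open Fermat.Agent.S16.H377.FR
open scoped Manifold

noncomputable section

variable (p : ℕ) [hpp : Fact p.Prime]

instance instNeZeroPrime : NeZero p := ⟨hpp.out.ne_zero⟩

/-! ### `q`-expansion calculus on `MF (Gamma0 p) k` -/

theorem an_of_mem {k : ℤ} {F : ℍ → ℂ} (hF : F ∈ MF (Gamma0 p) k) :
    AnalyticAt ℂ (cuspFunction 1 F) 0 :=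
  H556.analyticAt_of_mem_MF hF

theorem MF_top_le_Gamma0 (k : ℤ) : MF (⊤ : Subgroup SL(2, ℤ)) k ≤ MF (Gamma0 p) k :=
  fun _ hF => ⟨hF.1, fun γ _ => hF.2.1 γ (Subgroup.mem_top _), hF.2.2⟩

theorem mul_mem_MF_Gamma0 {k₁ k₂ : ℤ} {F G : ℍ → ℂ} (hF : F ∈ MF (Gamma0 p) k₁)
    (hG : G ∈ MF (Gamma0 p) k₂) : F * G ∈ MF (Gamma0 p) (k₁ + k₂) := by
  obtain ⟨f, rfl⟩ := exists_bundled p hF
  obtain ⟨g, rfl⟩ := exists_bundled p hG
  exact coe_mem_MF p (f.mul g)

theorem heckeU_mem_MF_Gamma0 {k : ℤ} {F : ℍ → ℂ} (hF : F ∈ MF (Gamma0 p) k) :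
    heckeU k p F ∈ MF (Gamma0 p) k := by
  obtain ⟨f, rfl⟩ := exists_bundled p hF
  exact coe_mem_MF p (heckeULin k (dvd_refl p) f)

theorem qExp_heckeU {k : ℤ} {F : ℍ → ℂ} (hF : F ∈ MF (Gamma0 p) k) :
    qExpansion 1 (heckeU k p F) = H131.Uop p (qExpansion 1 F) := by
  obtain ⟨f, rfl⟩ := exists_bundled p hF
  ext n
  have h := ModularFormClass.qCoeff_heckeU (k := k) f (one_mem_strictPeriods_Gamma0 p)
    hpp.out.ne_zero n
  rw [H131.coeff_Uop, mul_comm]
  exact h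


theorem qParam_diag_smul (τ : ℍ) :
    Function.Periodic.qParam 1 (heckeDiagMatrix p • τ : ℍ) = Function.Periodic.qParam 1 τ ^ p := by
  rw [coe_heckeDiagMatrix_smul hpp.out.ne_zero]
  simp only [Function.Periodic.qParam, Complex.ofReal_one, div_one]
  rw [← Complex.exp_nat_mul]
  congr 1
  ring

theorem hasSum_Vp {k : ℤ} (f : ModularForm 𝒮ℒ k) (τ : ℍ) :
    HasSum (fun n : ℕ => PowerSeries.coeff n
        (PowerSeries.expand p hpp.out.ne_zero (qExpansion 1 ⇑f)) •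
          Function.Periodic.qParam 1 (τ : ℂ) ^ n)
      (f (heckeDiagMatrix p • τ)) := by
  have h := (heckeDiagMatrix p • τ).hasSum_qExpansion (h := 1) one_pos
    (SlashInvariantFormClass.periodic_comp_ofComplex f one_mem_strictPeriods_SL)
    (ModularFormClass.holo f) (ModularFormClass.bdd_at_infty f)
  rw [qParam_diag_smul] at h
  have hinj : Function.Injective (fun m : ℕ => p * m) := mul_right_injective₀ hpp.out.ne_zero
  refine (Function.Injective.hasSum_iff hinj ?_).mp ?_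
  · intro n hn
    have hnd : ¬ p ∣ n := fun ⟨m, hm⟩ => hn ⟨m, hm.symm⟩
    rw [PowerSeries.coeff_expand_of_not_dvd p hpp.out.ne_zero _ hnd, zero_smul]
  · have e : ((fun n : ℕ => PowerSeries.coeff n
        (PowerSeries.expand p hpp.out.ne_zero (qExpansion 1 ⇑f)) •
          Function.Periodic.qParam 1 (τ : ℂ) ^ n) ∘ fun m : ℕ => p * m) =
        fun m : ℕ => (PowerSeries.coeff m (qExpansion 1 ⇑f)) •
          (Function.Periodic.qParam 1 (τ : ℂ) ^ p) ^ m := by
      funext m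
      simp only [Function.comp_apply]
      rw [PowerSeries.coeff_expand_mul, pow_mul]
    rw [e]
    exact h

theorem qExp_Vp {k : ℤ} {H : ℍ → ℂ} (hH : H ∈ MF (⊤ : Subgroup SL(2, ℤ)) k) :
    qExpansion 1 (Vp p H) = PowerSeries.expand p hpp.out.ne_zero (qExpansion 1 H) := by
  have hV : Vp p H ∈ MF (Gamma0 p) k := Vp_mem_MF p hH
  obtain ⟨f, rfl⟩ := Fermat.Agent.S20.C0h516.mem_MF_top_iff_exists.mp hH
  obtain ⟨g, hg⟩ := exists_bundled p hV
  ext n
  rw [← hg]
  exact (ModularFormClass.qExpansion_coeff_unique one_pos (one_mem_strictPeriods_Gamma0 p)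
    (f := g) (fun τ => by rw [hg]; exact hasSum_Vp p f τ) n).symm


/-! ### The Fricke system of `Γ₀(p)` -/

/-- `(a, b)` is the pair of `q`-expansions of `F` and `F^` for some `F ∈ M_w(Γ₀(p))`. -/
def IsFormPair (w : ℤ) (x : H131.PP) : Prop :=
  ∃ F : ℍ → ℂ, F ∈ MF (Gamma0 p) w ∧ qExpansion 1 F = x.1 ∧ qExpansion 1 (hat p w F) = x.2

/-- The concrete Fricke system of level `p`. -/
def frickeSys : H131.FrickeSys p hpp.out.ne_zero where
  Form := IsFormPair p
  add := by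
    rintro w x y ⟨F, hF, h1, h2⟩ ⟨G, hG, g1, g2⟩
    refine ⟨F + G, (MF (Gamma0 p) w).add_mem hF hG, ?_, ?_⟩
    · rw [qExpansion_add (an_of_mem p hF) (an_of_mem p hG), h1, g1]
      rfl
    · rw [hat_add, qExpansion_add (an_of_mem p (hat_mem_MF p hF))
        (an_of_mem p (hat_mem_MF p hG)), h2, g2]
      rfl
  smul := by
    rintro w x c ⟨F, hF, h1, h2⟩
    refine ⟨c • F, (MF (Gamma0 p) w).smul_mem c hF, ?_, ?_⟩
    · rw [qExpansion_smul (an_of_mem p hF), h1]
      rfl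
    · rw [hat_smul, qExpansion_smul (an_of_mem p (hat_mem_MF p hF)), h2]
      rfl
  mul := by
    rintro w w' x y ⟨F, hF, h1, h2⟩ ⟨G, hG, g1, g2⟩
    refine ⟨F * G, mul_mem_MF_Gamma0 p hF hG, ?_, ?_⟩
    · rw [qExpansion_mul (an_of_mem p hF) (an_of_mem p hG), h1, g1]
      rfl
    · rw [hat_mul, qExpansion_mul (an_of_mem p (hat_mem_MF p hF))
        (an_of_mem p (hat_mem_MF p hG)), h2, g2]
      rfl
  ofL1 := by
    rintro w a ⟨f, rfl⟩
    have hH : (⇑f : ℍ → ℂ) ∈ MF (⊤ : Subgroup SL(2, ℤ)) w :=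
      Fermat.Agent.S20.C0h516.mem_MF_top_iff_exists.mpr ⟨f, rfl⟩
    refine ⟨⇑f, MF_top_le_Gamma0 p w hH, rfl, ?_⟩
    rw [hat_levelOne p hH, qExpansion_smul (an_of_mem p (Vp_mem_MF p hH)), qExp_Vp p hH]
  symm := by
    rintro w x hw ⟨F, hF, h1, h2⟩
    refine ⟨hat p w F, hat_mem_MF p hF, h2, ?_⟩
    rw [hat_hat p hw, qExpansion_smul (an_of_mem p hF), h1]
  trace := by
    rintro w x ⟨F, hF, h1, h2⟩
    obtain ⟨f, hf⟩ := Fermat.Agent.S20.C0h516.mem_MF_top_iff_exists.mp (tr_mem_MF p hF)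
    refine ⟨f, ?_⟩
    have hU : heckeU w p (hat p w F) ∈ MF (Gamma0 p) w :=
      heckeU_mem_MF_Gamma0 p (hat_mem_MF p hF)
    rw [hf, tr, qExpansion_add (an_of_mem p hF)
      (an_of_mem p ((MF (Gamma0 p) w).smul_mem _ hU)), qExpansion_smul (an_of_mem p hU),
      qExp_heckeU p (hat_mem_MF p hF), h1, h2]

/-- **WP U4**, verbatim skeleton statement `Skel.U4`. -/
theorem U4 (p : ℕ) [Fact p.Prime] (hp8 : p % 8 = 7) {G : ℍ → ℂ} (hG : G ∈ MF (Gamma0 p) 2)
    (s : ℤ) (hs : Odd s) (h0 : qCoeff G 0 = (s : ℂ))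
    (hcong : ∀ k : ℕ, 1 ≤ k → ∃ m : ℤ, qCoeff G k = 8 * (m : ℂ)) : False := by
  choose m hm using hcong
  let x : PowerSeries ℤ := PowerSeries.mk fun k => if h : 1 ≤ k then m k h else 0
  have hx : ∀ k, PowerSeries.coeff k x = if h : 1 ≤ k then m k h else 0 :=
    fun k => PowerSeries.coeff_mk _ _
  have h8' : (8 : PowerSeries ℤ) = PowerSeries.C (8 : ℤ) := by rw [map_ofNat]
  have hc : ∀ k, PowerSeries.coeff k (H131.ι (PowerSeries.C s + 8 * x)) =
      (((if k = 0 then s else 0) + 8 * (if h : 1 ≤ k then m k h else 0) : ℤ) : ℂ) := by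
    intro k
    rw [PowerSeries.coeff_map, map_add, h8', PowerSeries.coeff_C_mul, PowerSeries.coeff_C, hx]
    rfl
  have hq : qExpansion 1 G = H131.ι (PowerSeries.C s + 8 * x) := by
    ext k
    rw [hc]
    rcases Nat.eq_zero_or_pos k with rfl | hk
    · have : PowerSeries.coeff 0 (qExpansion 1 G) = (s : ℂ) := h0
      rw [this]
      simp
    · have hk1 : 1 ≤ k := hk
      have : PowerSeries.coeff k (qExpansion 1 G) = 8 * (m k hk1 : ℂ) := hm k hk1
      rw [this, if_neg hk.ne', dif_pos hk1]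
      push_cast
      ring
  have h8 : 8 ∣ p + 1 := by omega
  refine (frickeSys p).U4 h8 s hs x (qExpansion 1 (hat p 2 G)) ?_
  exact ⟨G, hG, hq, rfl⟩

end

end Fermat.Agent.S16.H422
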